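import Fermat.Agent.S25.B.Basic

/-!
# S25 / layer B : the abstract "two short exact sequences" lemma  (task S25/B-Abstract)
-/
set_option autoImplicit false
universe u
open Polynomial TensorProduct

namespace Fermat.Agent.S25.B

namespace AL

section sym
variable {R : Type u} [CommRing R] {P K P' C Q : Type u}
  [AddCommGroup P] [AddCommGroup K] [AddCommGroup P'] [AddCommGroup C] [AddCommGroup Q]
  [Module R P] [Module R K] [Module R P'] [Module R C] [Module R Q]

/-- `Ker (d' ∘ ι) = range ι ⊓ range j`. -/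
noncomputable def kerEquivInf (ι : P →ₗ[R] P') (j : K →ₗ[R] P') (d' : P' →ₗ[R] Q)
    (hι : Function.Injective ι) (hj : Function.Exact j d') :
    Ker (d' ∘ₗ ι) ≃ₗ[R] ↥(LinearMap.range ι ⊓ LinearMap.range j) :=
  (LinearEquiv.ofEq (Ker (d' ∘ₗ ι)) ((LinearMap.range j).comap ι) (by
    show LinearMap.ker (d' ∘ₗ ι) = _
    rw [LinearMap.ker_comp, LinearMap.exact_iff.mp hj])).trans
  ((Submodule.equivMapOfInjective ι hι _).trans
    (LinearEquiv.ofEq _ _ (Submodule.map_comap_eq _ _)))

/-- `Coker (d' ∘ ι) = P' / (range ι ⊔ range j)`. -/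
noncomputable def cokerEquivSup (ι : P →ₗ[R] P') (j : K →ₗ[R] P') (d' : P' →ₗ[R] Q)
    (hd' : Function.Surjective d') (hj : Function.Exact j d') :
    Coker (d' ∘ₗ ι) ≃ₗ[R] P' ⧸ (LinearMap.range ι ⊔ LinearMap.range j) :=
  (((Submodule.quotEquivOfEq _ _ (by
      rw [LinearMap.ker_comp, Submodule.ker_mkQ, LinearMap.range_comp, Submodule.comap_map_eq,
        LinearMap.exact_iff.mp hj])).trans
    (((LinearMap.range (d' ∘ₗ ι)).mkQ ∘ₗ d').quotKerEquivOfSurjective
      ((Submodule.mkQ_surjective _).comp hd')))).symm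

theorem nonempty_ker_equiv (ι : P →ₗ[R] P') (π : P' →ₗ[R] C) (j : K →ₗ[R] P') (d' : P' →ₗ[R] Q)
    (hι : Function.Injective ι) (hιπ : Function.Exact ι π)
    (hj : Function.Injective j) (hjd : Function.Exact j d') :
    Nonempty (Ker (d' ∘ₗ ι) ≃ₗ[R] Ker (π ∘ₗ j)) :=
  ⟨(kerEquivInf ι j d' hι hjd).trans ((LinearEquiv.ofEq _ _ (inf_comm _ _)).trans
    (kerEquivInf j ι π hj hιπ).symm)⟩

theorem nonempty_coker_equiv (ι : P →ₗ[R] P') (π : P' →ₗ[R] C) (j : K →ₗ[R] P') (d' : P' →ₗ[R] Q)
    (hπ : Function.Surjective π) (hιπ : Function.Exact ι π)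
    (hd' : Function.Surjective d') (hjd : Function.Exact j d') :
    Nonempty (Coker (d' ∘ₗ ι) ≃ₗ[R] Coker (π ∘ₗ j)) :=
  ⟨(cokerEquivSup ι j d' hd' hjd).trans ((Submodule.quotEquivOfEq _ _ (sup_comm _ _)).trans
    (cokerEquivSup j ι π hπ hιπ).symm)⟩

end sym

section bc
variable {A : Type u} [CommRing A] {X Y Z : Type u}
  [AddCommGroup X] [AddCommGroup Y] [AddCommGroup Z] [Module A X] [Module A Y] [Module A Z]

theorem baseChange_surjective (g : Y →ₗ[A] Z) (hg : Function.Surjective g)
    (A' : Type u) [CommRing A'] [Algebra A A'] : Function.Surjective (g.baseChange A') :=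
  LinearMap.lTensor_surjective A' hg

theorem baseChange_exact (f : X →ₗ[A] Y) (g : Y →ₗ[A] Z) (hg : Function.Surjective g)
    (hfg : Function.Exact f g) (A' : Type u) [CommRing A'] [Algebra A A'] :
    Function.Exact (f.baseChange A') (g.baseChange A') :=
  lTensor_exact A' hfg hg

theorem baseChange_injective [Module.Projective A Z] (f : X →ₗ[A] Y) (g : Y →ₗ[A] Z)
    (hf : Function.Injective f) (hg : Function.Surjective g)
    (hfg : Function.Exact f g) (A' : Type u) [CommRing A'] [Algebra A A'] :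
    Function.Injective (f.baseChange A') := by
  obtain ⟨σ, hσ⟩ := Module.projective_lifting_property g LinearMap.id hg
  have htfae := (Function.Exact.split_tfae hfg hf hg).out 0 1 rfl rfl
  obtain ⟨ρ, hρ⟩ := htfae.mp ⟨σ, hσ⟩
  have h1 : (ρ.baseChange A') ∘ₗ (f.baseChange A') = LinearMap.id := by
    rw [← LinearMap.baseChange_comp, hρ, LinearMap.baseChange_id]
  exact Function.LeftInverse.injective (g := ρ.baseChange A') (fun x => LinearMap.congr_fun h1 x)

end bc

end AL

variable {A : Type u} [CommRing A] {P P' C Q : Type u}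
  [AddCommGroup P] [AddCommGroup P'] [AddCommGroup C] [AddCommGroup Q]
  [Module A P] [Module A P'] [Module A C] [Module A Q]

/-- **(AL)** `0 → P → P' → C → 0` exact, `d' : P' → Q` surjective, `C`, `Q` projective.  Then
`ker d' → C` computes universally the kernel and cokernel of `P → P' → Q`. -/
theorem computesUniversally_of_exact (ι : P →ₗ[A] P') (π : P' →ₗ[A] C) (d' : P' →ₗ[A] Q)
    (hι : Function.Injective ι) (hπ : Function.Surjective π) (hex : Function.Exact ι π)
    (hd' : Function.Surjective d') [Module.Projective A C] [Module.Projective A Q] :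
    ComputesUniversally (d' ∘ₗ ι) (π ∘ₗ (LinearMap.ker d').subtype) := by
  have hj : Function.Injective (LinearMap.ker d').subtype := Subtype.val_injective
  have hjd : Function.Exact (LinearMap.ker d').subtype d' := LinearMap.exact_subtype_ker_map d'
  constructor
  · intro A' _ _
    rw [LinearMap.baseChange_comp, LinearMap.baseChange_comp]
    exact AL.nonempty_ker_equiv _ _ _ _ (AL.baseChange_injective ι π hι hπ hex A')
      (AL.baseChange_exact ι π hπ hex A') (AL.baseChange_injective _ d' hj hd' hjd A')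
      (AL.baseChange_exact _ d' hd' hjd A')
  · intro A' _ _
    rw [LinearMap.baseChange_comp, LinearMap.baseChange_comp]
    exact AL.nonempty_coker_equiv _ _ _ _ (AL.baseChange_surjective π hπ A')
      (AL.baseChange_exact ι π hπ hex A') (AL.baseChange_surjective d' hd' A')
      (AL.baseChange_exact _ d' hd' hjd A')

end Fermat.Agent.S25.B
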