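import Fermat.Agent.S25.B.Basic

/-!
# S25 / layer B : comparison of base changes (abstract part of LC3)
-/
set_option autoImplicit false
set_option linter.style.haveILetI false
universe u
open Polynomial TensorProduct

namespace Fermat.Agent.S25.B

section inv
variable {A A' R R' N N' : Type u} [CommRing A] [CommRing A'] [CommRing R] [CommRing R']
  [Algebra A A'] [Algebra A R] [Algebra A' R'] [Algebra R R'] [Algebra A R']
  [IsScalarTower A A' R'] [IsScalarTower A R R'] [Algebra.IsPushout A A' R R']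
  [AddCommGroup N] [Module R N] [Module A N] [IsScalarTower A R N] [Module.Invertible R N]
  [AddCommGroup N'] [Module R' N'] [Module A' N'] [IsScalarTower A' R' N'] [Module.Invertible R' N']

/-- A semilinear map of invertible modules (over `R → R' = A' ⊗[A] R`) whose image spans is a base
change along `A → A'`. -/
theorem exists_equiv_of_span (b : N →ₛₗ[algebraMap R R'] N')
    (hb : Submodule.span R' (Set.range b) = ⊤) :
    ∃ e : A' ⊗[A] N ≃ₗ[A'] N', ∀ (a' : A') (n : N), e (a' ⊗ₜ n) = a' • b n := by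
  letI : Module R N' := Module.compHom N' (algebraMap R R')
  haveI : IsScalarTower R R' N' := .of_algebraMap_smul fun _ _ => rfl
  let b' : N →ₗ[R] N' :=
    { toFun := b
      map_add' := b.map_add
      map_smul' := fun r n => b.map_smulₛₗ r n }
  let γ : R' ⊗[R] N →ₗ[R'] N' := b'.liftBaseChange R'
  have hγs : Function.Surjective γ := by
    rw [← LinearMap.range_eq_top, LinearMap.range_liftBaseChange, eq_top_iff, ← hb]
    exact Submodule.span_mono (by rintro _ ⟨n, rfl⟩; exact ⟨n, rfl⟩)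
  have hγ : Function.Bijective γ := Module.Invertible.bijective_of_surjective hγs
  let c : R' ⊗[R] N ≃ₗ[A'] A' ⊗[A] N := Algebra.IsPushout.cancelBaseChange A A' R R' N
  let γe : R' ⊗[R] N ≃ₗ[A'] N' := (LinearEquiv.ofBijective γ hγ).restrictScalars A'
  refine ⟨c.symm.trans γe, fun a' n => ?_⟩
  rw [LinearEquiv.trans_apply, Algebra.IsPushout.cancelBaseChange_symm_tmul]
  show γ (algebraMap A' R' a' ⊗ₜ n) = _
  rw [LinearMap.liftBaseChange_tmul, algebraMap_smul]
  rfl

end inv

section transport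
variable {R : Type u} [CommRing R] {P Q P' Q' : Type u}
  [AddCommGroup P] [AddCommGroup Q] [AddCommGroup P'] [AddCommGroup Q']
  [Module R P] [Module R Q] [Module R P'] [Module R Q']

theorem map_ker_of_comm (d : P →ₗ[R] Q) (d' : P' →ₗ[R] Q') (eP : P ≃ₗ[R] P') (eQ : Q ≃ₗ[R] Q')
    (h : ∀ p, eQ (d p) = d' (eP p)) :
    (LinearMap.ker d).map (eP : P →ₗ[R] P') = LinearMap.ker d' := by
  ext p'
  constructor
  · rintro ⟨p, hp, rfl⟩
    have hp' : d p = 0 := hp
    show d' (eP p) = 0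
    rw [← h, hp', map_zero]
  · intro hp'
    have hp'' : d' p' = 0 := hp'
    refine ⟨eP.symm p', ?_, eP.apply_symm_apply p'⟩
    show d (eP.symm p') = 0
    apply eQ.injective
    rw [h, eP.apply_symm_apply, hp'', map_zero]

theorem map_range_of_comm (d : P →ₗ[R] Q) (d' : P' →ₗ[R] Q') (eP : P ≃ₗ[R] P') (eQ : Q ≃ₗ[R] Q')
    (h : ∀ p, eQ (d p) = d' (eP p)) :
    (LinearMap.range d).map (eQ : Q →ₗ[R] Q') = LinearMap.range d' := by
  ext q'
  constructor
  · rintro ⟨_, ⟨p, rfl⟩, rfl⟩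
    exact ⟨eP p, (h p).symm⟩
  · rintro ⟨p', rfl⟩
    exact ⟨d (eP.symm p'), ⟨_, rfl⟩, by
      show eQ (d (eP.symm p')) = _
      rw [h, eP.apply_symm_apply]⟩

/-- isomorphic maps have isomorphic kernels -/
noncomputable def kerEquivOfComm (d : P →ₗ[R] Q) (d' : P' →ₗ[R] Q') (eP : P ≃ₗ[R] P')
    (eQ : Q ≃ₗ[R] Q') (h : ∀ p, eQ (d p) = d' (eP p)) : Ker d ≃ₗ[R] Ker d' :=
  eP.ofSubmodules _ _ (map_ker_of_comm d d' eP eQ h)

/-- isomorphic maps have isomorphic cokernels -/
noncomputable def cokerEquivOfComm (d : P →ₗ[R] Q) (d' : P' →ₗ[R] Q') (eP : P ≃ₗ[R] P')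
    (eQ : Q ≃ₗ[R] Q') (h : ∀ p, eQ (d p) = d' (eP p)) : Coker d ≃ₗ[R] Coker d' :=
  Submodule.Quotient.equiv _ _ eQ (map_range_of_comm d d' eP eQ h)

/-- base change along the identity does nothing -/
noncomputable def kerBaseChangeSelf (d : P →ₗ[R] Q) : Ker (d.baseChange R) ≃ₗ[R] Ker d :=
  kerEquivOfComm _ _ (TensorProduct.lid R P) (TensorProduct.lid R Q) (fun t => by
    induction t using TensorProduct.induction_on with
    | zero => simp
    | tmul a p => simp
    | add x y hx hy => simp only [map_add, hx, hy])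

noncomputable def cokerBaseChangeSelf (d : P →ₗ[R] Q) : Coker (d.baseChange R) ≃ₗ[R] Coker d :=
  cokerEquivOfComm _ _ (TensorProduct.lid R P) (TensorProduct.lid R Q) (fun t => by
    induction t using TensorProduct.induction_on with
    | zero => simp
    | tmul a p => simp
    | add x y hx hy => simp only [map_add, hx, hy])

end transport

section loc
variable {A A' : Type u} [CommRing A] [CommRing A'] [Algebra A A'] {N M N' M' : Type u}
  [AddCommGroup N] [AddCommGroup M] [Module A N] [Module A M]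
  [AddCommGroup N'] [AddCommGroup M'] [Module A' N'] [Module A' M']

theorem baseChange_pow_tmul (xM : M ≃ₗ[A] M) (j : ℕ) (a : A') (m : M) :
    ((xM.baseChange A A' M M) ^ j) (a ⊗ₜ m) = a ⊗ₜ ((xM ^ j) m) := by
  induction j with
  | zero => rfl
  | succ j ih => rw [pow_succ_apply', ih, LinearEquiv.baseChange_tmul, pow_succ_apply']

/-- The base change of a localisation is the localisation of the base change. -/
theorem bijective_of_localization (r : N →ₗ[A] M) (xN : N →ₗ[A] N) (xM : M ≃ₗ[A] M)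
    (hr : ∀ n, r (xN n) = xM (r n)) (hspan : ∀ m : M, ∃ (j : ℕ) (n : N), (xM ^ j) m = r n)
    (r' : N' →ₗ[A'] M') (xM' : M' ≃ₗ[A'] M') (hinj' : Function.Injective r')
    (hspan' : ∀ m : M', ∃ (j : ℕ) (n : N'), (xM' ^ j) m = r' n)
    (e : A' ⊗[A] N ≃ₗ[A'] N') (bM : A' ⊗[A] M →ₗ[A'] M')
    (hcomm : ∀ t, bM (r.baseChange A' t) = r' (e t))
    (hx : ∀ t, bM (xM.baseChange A A' M M t) = xM' (bM t)) : Function.Bijective bM := by
  set X := xM.baseChange A A' M M with hX
  have hxj : ∀ (j : ℕ) t, bM ((X ^ j) t) = (xM' ^ j) (bM t) := by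
    intro j
    induction j with
    | zero => intro t; rfl
    | succ j ih => intro t; rw [pow_succ_apply', pow_succ_apply', hx, ih]
  constructor
  · -- injectivity
    have hXr : ∀ t₀, X (r.baseChange A' t₀) = r.baseChange A' (xN.baseChange A' t₀) := by
      intro t₀
      induction t₀ using TensorProduct.induction_on with
      | zero => simp
      | tmul a n => simp [hX, hr]
      | add x y hx hy => simp only [map_add, hx, hy]
    have hmono : ∀ (i j : ℕ) t, (∃ t₀, (X ^ j) t = r.baseChange A' t₀) →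
        ∃ t₀, (X ^ (i + j)) t = r.baseChange A' t₀ := by
      intro i
      induction i with
      | zero => intro j t h; simpa using h
      | succ i ih =>
        intro j t h
        obtain ⟨t₀, ht₀⟩ := ih j t h
        exact ⟨xN.baseChange A' t₀, by rw [add_right_comm, pow_succ_apply', ht₀, hXr]⟩
    have hex : ∀ t : A' ⊗[A] M, ∃ (j : ℕ) (t₀ : A' ⊗[A] N), (X ^ j) t = r.baseChange A' t₀ := by
      intro t
      induction t using TensorProduct.induction_on with
      | zero => exact ⟨0, 0, by simp⟩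
      | tmul a m =>
        obtain ⟨j, n, hjn⟩ := hspan m
        exact ⟨j, a ⊗ₜ n, by rw [hX, baseChange_pow_tmul, hjn, LinearMap.baseChange_tmul]⟩
      | add x y hx hy =>
        obtain ⟨j₁, t₁, h₁⟩ := hx
        obtain ⟨j₂, t₂, h₂⟩ := hy
        obtain ⟨s₁, hs₁⟩ := hmono j₂ j₁ x ⟨t₁, h₁⟩
        obtain ⟨s₂, hs₂⟩ := hmono j₁ j₂ y ⟨t₂, h₂⟩
        refine ⟨j₁ + j₂, s₁ + s₂, ?_⟩
        rw [map_add, map_add, ← hs₂, ← hs₁, add_comm j₁ j₂]
    rw [injective_iff_map_eq_zero]
    intro t ht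
    obtain ⟨j, t₀, hj⟩ := hex t
    have h1 : r' (e t₀) = 0 := by rw [← hcomm, ← hj, hxj, ht, map_zero]
    have h2 : t₀ = 0 := by
      apply e.injective
      apply hinj'
      rw [h1, map_zero, map_zero]
    rw [h2, map_zero] at hj
    exact (X ^ j).injective (by rw [hj, map_zero])
  · -- surjectivity
    intro m'
    obtain ⟨j, n', hj⟩ := hspan' m'
    refine ⟨(X.symm ^ j) (r.baseChange A' (e.symm n')), ?_⟩
    apply (xM' ^ j).injective
    rw [← hxj, pow_apply_symm_pow, hcomm, e.apply_symm_apply, hj]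

end loc

section total
variable {A A' : Type u} [CommRing A] [CommRing A'] [Algebra A A'] {N₀ N₁ M N₀' N₁' M' : Type u}
  [AddCommGroup N₀] [AddCommGroup N₁] [AddCommGroup M] [Module A N₀] [Module A N₁] [Module A M]
  [AddCommGroup N₀'] [AddCommGroup N₁'] [AddCommGroup M'] [Module A' N₀'] [Module A' N₁']
  [Module A' M']

/-- the base change of the Čech complex. -/
theorem exists_total_equiv (r₀ : N₀ →ₗ[A] M) (r₁ : N₁ →ₗ[A] M) (r₀' : N₀' →ₗ[A'] M')
    (r₁' : N₁' →ₗ[A'] M') (e₀ : A' ⊗[A] N₀ ≃ₗ[A'] N₀') (e₁ : A' ⊗[A] N₁ ≃ₗ[A'] N₁')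
    (eM : A' ⊗[A] M ≃ₗ[A'] M') (h₀ : ∀ t, eM (r₀.baseChange A' t) = r₀' (e₀ t))
    (h₁ : ∀ t, eM (r₁.baseChange A' t) = r₁' (e₁ t)) :
    ∃ E : A' ⊗[A] (N₀ × N₁) ≃ₗ[A'] N₀' × N₁',
      (∀ (a : A') (n : N₀ × N₁), E (a ⊗ₜ n) = (e₀ (a ⊗ₜ n.1), e₁ (a ⊗ₜ n.2))) ∧
      ∀ t, eM ((dC r₀ r₁).baseChange A' t) = dC r₀' r₁' (E t) := by
  let E : A' ⊗[A] (N₀ × N₁) ≃ₗ[A'] N₀' × N₁' :=
    (TensorProduct.prodRight A A' A' N₀ N₁).trans (e₀.prodCongr e₁)
  have hE : ∀ (a : A') (n : N₀ × N₁), E (a ⊗ₜ n) = (e₀ (a ⊗ₜ n.1), e₁ (a ⊗ₜ n.2)) := by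
    intro a n
    simp [E]
  refine ⟨E, hE, fun t => ?_⟩
  induction t using TensorProduct.induction_on with
  | zero => simp
  | tmul a n =>
    rw [hE, LinearMap.baseChange_tmul, dC_apply, dC_apply, TensorProduct.tmul_sub, map_sub,
      ← LinearMap.baseChange_tmul, ← LinearMap.baseChange_tmul, h₀, h₁]
  | add x y hx hy => simp only [map_add, hx, hy]

end total

end Fermat.Agent.S25.B
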