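import Fermat.Agent.S25.B.Defs

/-!
# S25 / layer B : basic constructions (twist, multiplication by a polynomial)
-/
set_option autoImplicit false
universe u
open Polynomial TensorProduct

namespace Fermat.Agent.S25.B

variable {A : Type u} [CommRing A]

/-- multiplication by the polynomial `p`, as an `A`-linear endomorphism of an `A[X]`-module. -/
noncomputable def smulP (N : Type u) [AddCommGroup N] [Module A N] [Module A[X] N] [IsScalarTower A A[X] N]
    (p : A[X]) : N →ₗ[A] N := (LinearMap.lsmul A[X] N p).restrictScalars A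

@[simp] theorem smulP_apply {N : Type u} [AddCommGroup N] [Module A N] [Module A[X] N]
    [IsScalarTower A A[X] N] (p : A[X]) (n : N) : smulP N p n = p • n := rfl

variable {N₀ N₁ M : Type u}
    [AddCommGroup N₀] [AddCommGroup N₁] [AddCommGroup M] [Module A N₀] [Module A N₁] [Module A M]

@[simp] theorem dC_apply (r₀ : N₀ →ₗ[A] M) (r₁ : N₁ →ₗ[A] M) (n : N₀ × N₁) :
    dC r₀ r₁ n = r₀ n.1 - r₁ n.2 := by
  simp [dC, sub_eq_add_neg]

/-- the `i`-th twist of the second lattice: `n ↦ x^i (r₁ n)`. -/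
def tw (xM : M ≃ₗ[A] M) (r₁ : N₁ →ₗ[A] M) (i : ℕ) : N₁ →ₗ[A] M := (xM ^ i).toLinearMap ∘ₗ r₁

@[simp] theorem tw_apply (xM : M ≃ₗ[A] M) (r₁ : N₁ →ₗ[A] M) (i : ℕ) (n : N₁) :
    tw xM r₁ i n = (xM ^ i) (r₁ n) := rfl

theorem pow_succ_apply' (xM : M ≃ₗ[A] M) (i : ℕ) (m : M) : (xM ^ (i + 1)) m = xM ((xM ^ i) m) := by
  rw [pow_succ']; rfl

theorem pow_succ_apply (xM : M ≃ₗ[A] M) (i : ℕ) (m : M) : (xM ^ (i + 1)) m = (xM ^ i) (xM m) := by
  rw [pow_succ]; rfl

theorem pow_add_apply (xM : M ≃ₗ[A] M) (i j : ℕ) (m : M) :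
    (xM ^ (i + j)) m = (xM ^ i) ((xM ^ j) m) := by
  rw [pow_add]; rfl

theorem symm_pow_apply_pow (xM : M ≃ₗ[A] M) (i : ℕ) (m : M) : (xM.symm ^ i) ((xM ^ i) m) = m := by
  induction i generalizing m with
  | zero => rfl
  | succ i ih => rw [pow_succ_apply, pow_succ_apply', LinearEquiv.symm_apply_apply, ih]

theorem pow_apply_symm_pow (xM : M ≃ₗ[A] M) (i : ℕ) (m : M) : (xM ^ i) ((xM.symm ^ i) m) = m := by
  induction i generalizing m with
  | zero => rfl
  | succ i ih => rw [pow_succ_apply, pow_succ_apply', LinearEquiv.apply_symm_apply, ih]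

theorem pow_symm_comm (xM : M ≃ₗ[A] M) (i j : ℕ) (m : M) :
    (xM ^ i) ((xM.symm ^ j) m) = (xM.symm ^ j) ((xM ^ i) m) := by
  apply (xM ^ j).injective
  rw [pow_apply_symm_pow, ← pow_add_apply, add_comm, pow_add_apply, pow_apply_symm_pow]

variable [Module A[X] N₀] [Module A[X] N₁] [IsScalarTower A A[X] N₀] [IsScalarTower A A[X] N₁]
    {r₀ : N₀ →ₗ[A] M} {r₁ : N₁ →ₗ[A] M} {xM : M ≃ₗ[A] M}

omit [IsScalarTower A A[X] N₀] in
theorem map_X_pow_smul {r : N₀ →ₗ[A] M} {T : M ≃ₗ[A] M} (hr : ∀ n, r ((X : A[X]) • n) = T (r n))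
    (j : ℕ) (n : N₀) : r ((X : A[X]) ^ j • n) = (T ^ j) (r n) := by
  induction j with
  | zero => simp
  | succ j ih => rw [pow_succ', mul_smul, hr, ih, pow_succ_apply']

theorem IsP1Bundle.map_pow₀ (h : IsP1Bundle r₀ r₁ xM) (j : ℕ) (n : N₀) :
    r₀ ((X : A[X]) ^ j • n) = (xM ^ j) (r₀ n) := map_X_pow_smul h.semilinear₀ j n

theorem IsP1Bundle.map_pow₁ (h : IsP1Bundle r₀ r₁ xM) (j : ℕ) (n : N₁) :
    r₁ ((X : A[X]) ^ j • n) = (xM.symm ^ j) (r₁ n) := map_X_pow_smul h.semilinear₁ j n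

/-- the twist of a bundle is a bundle. -/
theorem IsP1Bundle.twist (h : IsP1Bundle r₀ r₁ xM) (i : ℕ) : IsP1Bundle r₀ (tw xM r₁ i) xM where
  finite₀ := h.finite₀
  finite₁ := h.finite₁
  projective₀ := h.projective₀
  projective₁ := h.projective₁
  inj₀ := h.inj₀
  inj₁ := (xM ^ i).injective.comp h.inj₁
  semilinear₀ := h.semilinear₀
  semilinear₁ n := by
    have := pow_symm_comm xM i 1 (r₁ n)
    simp only [pow_one] at this
    rw [tw_apply, tw_apply, h.semilinear₁, this]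
  span₀ := h.span₀
  span₁ m := by
    obtain ⟨j, n, hn⟩ := h.span₁ m
    refine ⟨j, (X : A[X]) ^ i • n, ?_⟩
    rw [tw_apply, h.map_pow₁, pow_apply_symm_pow, hn]

/-- `dC r₀ r₁` factors through the twisted differential. -/
theorem IsP1Bundle.dC_tw_comp (h : IsP1Bundle r₀ r₁ xM) (i : ℕ) :
    dC r₀ (tw xM r₁ i) ∘ₗ (LinearMap.id.prodMap (smulP N₁ ((X : A[X]) ^ i))) = dC r₀ r₁ := by
  ext n <;> simp [h.map_pow₁, pow_apply_symm_pow]

theorem IsP1Bundle.smulP_injective (h : IsP1Bundle r₀ r₁ xM) (i : ℕ) :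
    Function.Injective (smulP N₁ ((X : A[X]) ^ i)) := by
  intro a b hab
  apply h.inj₁
  apply (xM.symm ^ i).injective
  rw [← h.map_pow₁, ← h.map_pow₁]
  exact congrArg r₁ hab

end Fermat.Agent.S25.B
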