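import Fermat.Agent.S25.B.Basic

/-!
# S25 / layer B : the core generation lemma  (task S25/B-Core)

`V` an `A`-module with an automorphism `T`; `r : N → V` semilinear (`X ↦ T`) from a f.g.
`A[X]`-module; `L₁ ≤ V` stable under `T⁻¹`; `W ≤ V` such that every `w ∈ W` is moved into `range r`
by a power of `T`, and every `r n` is moved into `L₁` by a power of `T⁻¹`.

Proof.  Let `e_l` generate `N` over `A[X]`.  There is `a` with `T^{-c} (r e_l) ∈ L₁` for all `c ≥ a`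
and all `l`.  Every `w ∈ W` is `T^{-j} r (∑ p_l e_l)`, an `A`-combination of the `T^c (r e_l)`, `c ∈ ℤ`.
For `c ≥ 0` these are in `range r`, for `c ≤ -a` in `L₁` (and for `c ≤ i - a` in `T^i L₁`).
-/
set_option autoImplicit false
universe u
open Polynomial TensorProduct

namespace Fermat.Agent.S25.B

variable {A : Type u} [CommRing A] {V N : Type u} [AddCommGroup V] [Module A V]
  [AddCommGroup N] [Module A N] [Module A[X] N] [IsScalarTower A A[X] N]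

/-- If `Y ⊇ range r` contains all `T^{-j} (r g)` for `g` in a generating set, it contains all
`T^{-j} (r n)`. -/
theorem core_aux (T : V ≃ₗ[A] V) (r : N →ₗ[A] V)
    (hr : ∀ n, r ((X : A[X]) • n) = T (r n)) (Y : Submodule A V) (hrY : LinearMap.range r ≤ Y)
    (G : Set N) (hG : Submodule.span A[X] G = ⊤)
    (hGY : ∀ g ∈ G, ∀ j : ℕ, (T.symm ^ j) (r g) ∈ Y) (n : N) (j : ℕ) :
    (T.symm ^ j) (r n) ∈ Y := by
  have hX : ∀ n : N, (∀ j : ℕ, (T.symm ^ j) (r n) ∈ Y) →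
      ∀ j : ℕ, (T.symm ^ j) (r ((X : A[X]) • n)) ∈ Y := by
    intro n hn j
    cases j with
    | zero => exact hrY ⟨_, rfl⟩
    | succ j => rw [hr, pow_succ_apply, LinearEquiv.symm_apply_apply]; exact hn j
  have hXc : ∀ (c : ℕ) (n : N), (∀ j : ℕ, (T.symm ^ j) (r n) ∈ Y) →
      ∀ j : ℕ, (T.symm ^ j) (r ((X : A[X]) ^ c • n)) ∈ Y := by
    intro c
    induction c with
    | zero => intro n hn j; simpa using hn j
    | succ c ih => intro n hn; rw [pow_succ', mul_smul]; exact hX _ (ih n hn)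
  have hp : ∀ (p : A[X]) (n : N), (∀ j : ℕ, (T.symm ^ j) (r n) ∈ Y) →
      ∀ j : ℕ, (T.symm ^ j) (r (p • n)) ∈ Y := by
    intro p n hn
    induction p using Polynomial.induction_on' with
    | add p q hp hq => intro j; rw [add_smul, map_add, map_add]; exact Y.add_mem (hp j) (hq j)
    | monomial c a =>
      intro j
      rw [← C_mul_X_pow_eq_monomial, mul_smul, ← algebraMap_eq, algebraMap_smul, map_smul, map_smul]
      exact Y.smul_mem _ (hXc c n hn j)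
  have hn : n ∈ Submodule.span A[X] G := hG ▸ Submodule.mem_top
  revert j
  induction hn using Submodule.span_induction with
  | mem g hg => exact hGY g hg
  | zero => intro j; simp
  | add x y _ _ hx hy => intro j; rw [map_add, map_add]; exact Y.add_mem (hx j) (hy j)
  | smul p x _ hx => exact hp p x hx

omit [Module A[X] N] [IsScalarTower A A[X] N] in
/-- a uniform bound for a finite set of generators. -/
theorem core_bound (T : V ≃ₗ[A] V) (r : N →ₗ[A] V) (L₁ : Submodule A V)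
    (hL₁ : ∀ v ∈ L₁, T.symm v ∈ L₁)
    (hN : ∀ n : N, ∃ j : ℕ, (T.symm ^ j) (r n) ∈ L₁) (G : Finset N) :
    ∃ a : ℕ, ∀ g ∈ G, ∀ c ≥ a, (T.symm ^ c) (r g) ∈ L₁ := by
  choose J hJ using hN
  have hst : ∀ (k : ℕ) (v : V), v ∈ L₁ → (T.symm ^ k) v ∈ L₁ := by
    intro k
    induction k with
    | zero => intro v hv; exact hv
    | succ k ih => intro v hv; rw [pow_succ_apply']; exact hL₁ _ (ih v hv)
  refine ⟨G.sup J, fun g hg c hc => ?_⟩
  have hle : J g ≤ c := le_trans (Finset.le_sup hg) hc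
  obtain ⟨k, rfl⟩ := Nat.exists_eq_add_of_le' hle
  rw [pow_add_apply]
  exact hst _ _ (hJ g)

omit [Module A[X] N] [IsScalarTower A A[X] N] in
theorem core_le (T : V ≃ₗ[A] V) (r : N →ₗ[A] V) (W Y : Submodule A V)
    (hW : ∀ w ∈ W, ∃ (j : ℕ) (n : N), (T ^ j) w = r n)
    (hY : ∀ (n : N) (j : ℕ), (T.symm ^ j) (r n) ∈ Y) : W ≤ Y := by
  intro w hw
  obtain ⟨j, n, hjn⟩ := hW w hw
  rw [← symm_pow_apply_pow T j w, hjn]
  exact hY n j

theorem core_fg [Module.Finite A[X] N] (T : V ≃ₗ[A] V) (r : N →ₗ[A] V)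
    (hr : ∀ n, r ((X : A[X]) • n) = T (r n)) (W L₁ : Submodule A V)
    (hW : ∀ w ∈ W, ∃ (j : ℕ) (n : N), (T ^ j) w = r n)
    (hL₁ : ∀ v ∈ L₁, T.symm v ∈ L₁)
    (hN : ∀ n : N, ∃ j : ℕ, (T.symm ^ j) (r n) ∈ L₁) :
    ∃ S : Finset V, (∀ v ∈ S, ∃ (c : ℕ) (n : N), v = (T.symm ^ c) (r n)) ∧
      W ≤ Submodule.span A (S : Set V) ⊔ LinearMap.range r ⊔ L₁ := by
  classical
  obtain ⟨G, hG⟩ := (Module.Finite.fg_top : (⊤ : Submodule A[X] N).FG)
  obtain ⟨a, ha⟩ := core_bound T r L₁ hL₁ hN G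
  refine ⟨(Finset.range a ×ˢ G).image (fun z => (T.symm ^ z.1) (r z.2)), ?_, ?_⟩
  · intro v hv
    obtain ⟨z, -, rfl⟩ := Finset.mem_image.mp hv
    exact ⟨z.1, z.2, rfl⟩
  · refine core_le T r W _ hW (core_aux T r hr _ (le_sup_of_le_left le_sup_right) G hG ?_)
    intro g hg j
    by_cases hj : j < a
    · refine Submodule.mem_sup_left (Submodule.mem_sup_left (Submodule.subset_span ?_))
      exact Finset.mem_coe.mpr (Finset.mem_image.mpr
        ⟨(j, g), Finset.mem_product.mpr ⟨Finset.mem_range.mpr hj, hg⟩, rfl⟩)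
    · exact Submodule.mem_sup_right (ha g hg j (not_lt.mp hj))

theorem core_twist [Module.Finite A[X] N] (T : V ≃ₗ[A] V) (r : N →ₗ[A] V)
    (hr : ∀ n, r ((X : A[X]) • n) = T (r n)) (W L₁ : Submodule A V)
    (hW : ∀ w ∈ W, ∃ (j : ℕ) (n : N), (T ^ j) w = r n)
    (hL₁ : ∀ v ∈ L₁, T.symm v ∈ L₁)
    (hN : ∀ n : N, ∃ j : ℕ, (T.symm ^ j) (r n) ∈ L₁) :
    ∃ a : ℕ, ∀ i ≥ a, W ≤ LinearMap.range r ⊔ L₁.map (T ^ i).toLinearMap := by
  obtain ⟨G, hG⟩ := (Module.Finite.fg_top : (⊤ : Submodule A[X] N).FG)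
  obtain ⟨a, ha⟩ := core_bound T r L₁ hL₁ hN G
  refine ⟨a, fun i hi => ?_⟩
  refine core_le T r W _ hW (core_aux T r hr _ le_sup_left G hG ?_)
  intro g hg j
  refine Submodule.mem_sup_right ⟨(T.symm ^ (i + j)) (r g), ha g hg _ (by omega), ?_⟩
  rw [pow_add_apply]
  exact pow_apply_symm_pow T i _

variable {N₀ N₁ M : Type u}
    [AddCommGroup N₀] [AddCommGroup N₁] [AddCommGroup M] [Module A N₀] [Module A N₁] [Module A M]
    [Module A[X] N₀] [Module A[X] N₁] [IsScalarTower A A[X] N₀] [IsScalarTower A A[X] N₁]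
    {r₀ : N₀ →ₗ[A] M} {r₁ : N₁ →ₗ[A] M} {xM : M ≃ₗ[A] M}

/-- `H¹(E(i)) = 0` for `i ≫ 0`. -/
theorem IsP1Bundle.exists_twist_surjective (h : IsP1Bundle r₀ r₁ xM) :
    ∃ m₀ : ℕ, ∀ i ≥ m₀, Function.Surjective (dC r₀ (tw xM r₁ i)) := by
  have := h.finite₀
  obtain ⟨a, ha⟩ := core_twist xM r₀ h.semilinear₀ ⊤ (LinearMap.range r₁)
    (fun w _ => h.span₀ w)
    (by
      rintro _ ⟨n, rfl⟩
      exact ⟨(X : A[X]) • n, h.semilinear₁ n⟩)
    (fun n => by
      obtain ⟨j, n', hn'⟩ := h.span₁ (r₀ n)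
      exact ⟨j, n', hn'.symm⟩)
  refine ⟨a, fun i hi m => ?_⟩
  obtain ⟨y, ⟨n₀, rfl⟩, z, ⟨_, ⟨n₁, rfl⟩, rfl⟩, hyz⟩ :=
    Submodule.mem_sup.mp (ha i hi (Submodule.mem_top : m ∈ ⊤))
  refine ⟨(n₀, -n₁), ?_⟩
  rw [dC_apply, ← hyz]
  simp

end Fermat.Agent.S25.B
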