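import Mathlib

/-!
# S25 / layer B : "vector bundles on E₁_A" as lattice pairs — definitions
Pure commutative algebra; independent of the curve.
-/
set_option autoImplicit false
universe u
open Polynomial TensorProduct

namespace Fermat.Agent.S25.B

section Cech
variable {A : Type u} [CommRing A] {N₀ N₁ M : Type u}
  [AddCommGroup N₀] [AddCommGroup N₁] [AddCommGroup M] [Module A N₀] [Module A N₁] [Module A M]

/-- The Čech differential `(n₀,n₁) ↦ r₀ n₀ - r₁ n₁`. -/
def dC (r₀ : N₀ →ₗ[A] M) (r₁ : N₁ →ₗ[A] M) : (N₀ × N₁) →ₗ[A] M := r₀.coprod (-r₁)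

end Cech

/-- kernel and cokernel of a linear map, as types -/
abbrev Ker {A : Type u} [CommRing A] {P Q : Type u} [AddCommGroup P] [AddCommGroup Q] [Module A P]
    [Module A Q] (d : P →ₗ[A] Q) : Submodule A P := LinearMap.ker d
abbrev Coker {A : Type u} [CommRing A] {P Q : Type u} [AddCommGroup P] [AddCommGroup Q] [Module A P]
    [Module A Q] (d : P →ₗ[A] Q) : Type u := Q ⧸ LinearMap.range d

/-- `δ : E₀ → E₁` computes the kernel and cokernel of `d` universally (after every base change). -/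
structure ComputesUniversally {A : Type u} [CommRing A] {P Q E₀ E₁ : Type u}
    [AddCommGroup P] [AddCommGroup Q] [Module A P] [Module A Q]
    [AddCommGroup E₀] [AddCommGroup E₁] [Module A E₀] [Module A E₁]
    (d : P →ₗ[A] Q) (δ : E₀ →ₗ[A] E₁) : Prop where
  ker : ∀ (A' : Type u) [CommRing A'] [Algebra A A'],
    Nonempty (Ker (d.baseChange A') ≃ₗ[A'] Ker (δ.baseChange A'))
  coker : ∀ (A' : Type u) [CommRing A'] [Algebra A A'],
    Nonempty (Coker (d.baseChange A') ≃ₗ[A'] Coker (δ.baseChange A'))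

/-- A vector bundle on `E₁_A`: `N₀` f.g. projective over `A[X]` (`X = x`), `N₁` f.g. projective over
`A[X]` (`X = y = 1/x`), both lattices in the `A`-module `M` on which `x` acts by the automorphism `xM`. -/
structure IsP1Bundle {A : Type u} [CommRing A] {N₀ N₁ M : Type u}
    [AddCommGroup N₀] [AddCommGroup N₁] [AddCommGroup M] [Module A N₀] [Module A N₁] [Module A M]
    [Module A[X] N₀] [Module A[X] N₁] [IsScalarTower A A[X] N₀] [IsScalarTower A A[X] N₁]
    (r₀ : N₀ →ₗ[A] M) (r₁ : N₁ →ₗ[A] M) (xM : M ≃ₗ[A] M) : Prop where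
  finite₀ : Module.Finite A[X] N₀
  finite₁ : Module.Finite A[X] N₁
  projective₀ : Module.Projective A[X] N₀
  projective₁ : Module.Projective A[X] N₁
  inj₀ : Function.Injective r₀
  inj₁ : Function.Injective r₁
  semilinear₀ : ∀ n, r₀ ((X : A[X]) • n) = xM (r₀ n)
  semilinear₁ : ∀ n, r₁ ((X : A[X]) • n) = xM.symm (r₁ n)
  span₀ : ∀ m : M, ∃ (j : ℕ) (n : N₀), (xM ^ j) m = r₀ n
  span₁ : ∀ m : M, ∃ (j : ℕ) (n : N₁), (xM.symm ^ j) m = r₁ n

end Fermat.Agent.S25.B
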