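import Fermat.Agent.S25.B.Basic

/-!
# S25 / layer B : the model `O(-1)^s` : `A[X]^s × A[X]^s = A[T,T⁻¹]^s` with its shift `T`
(task S25/B-Shift)

`(p, q)` stands for the Laurent polynomial vector `p(T) - T⁻¹ q(T⁻¹)`.
-/
set_option autoImplicit false
universe u
open Polynomial TensorProduct

namespace Fermat.Agent.S25.B

variable {A : Type u} [CommRing A] {s : ℕ}

theorem shift_aux₁ (p : A[X]) (a : A) : (X * p - C a).divX = p := by
  ext n
  simp [coeff_divX, coeff_X_mul, coeff_C_succ]

theorem shift_aux₂ (p q : A[X]) : X * q.divX - C ((X * p - C (q.coeff 0)).coeff 0) = q := by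
  conv_rhs => rw [← X_mul_divX_add q]
  simp

/-- `T (p, q) = (X p - C q₀, divX q)`, `T⁻¹ (p, q) = (divX p, X q - C p₀)`. -/
noncomputable def shiftT (A : Type u) [CommRing A] (s : ℕ) :
    ((Fin s → A[X]) × (Fin s → A[X])) ≃ₗ[A] ((Fin s → A[X]) × (Fin s → A[X])) where
  toFun z := (fun k => X * z.1 k - C ((z.2 k).coeff 0), fun k => (z.2 k).divX)
  invFun z := (fun k => (z.1 k).divX, fun k => X * z.2 k - C ((z.1 k).coeff 0))
  map_add' z w := by
    refine Prod.ext (funext fun k => ?_) (funext fun k => ?_)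
    · simp only [Prod.fst_add, Prod.snd_add, Pi.add_apply, coeff_add, C_add]
      ring
    · simp only [Prod.snd_add, Pi.add_apply, divX_add]
  map_smul' a z := by
    refine Prod.ext (funext fun k => ?_) (funext fun k => ?_)
    · simp only [Prod.smul_fst, Prod.smul_snd, Pi.smul_apply, RingHom.id_apply,
        smul_eq_C_mul, coeff_C_mul, C_mul]
      ring
    · simp only [Prod.smul_snd, Pi.smul_apply, RingHom.id_apply, smul_eq_C_mul, divX_C_mul]
  left_inv z := by
    refine Prod.ext (funext fun k => ?_) (funext fun k => ?_)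
    · exact shift_aux₁ _ _
    · exact shift_aux₂ _ _
  right_inv z := by
    refine Prod.ext (funext fun k => ?_) (funext fun k => ?_)
    · exact shift_aux₂ _ _
    · exact shift_aux₁ _ _

theorem shiftT_apply (z : (Fin s → A[X]) × (Fin s → A[X])) :
    shiftT A s z = (fun k => X * z.1 k - C ((z.2 k).coeff 0), fun k => (z.2 k).divX) := rfl

theorem shiftT_symm_apply (z : (Fin s → A[X]) × (Fin s → A[X])) :
    (shiftT A s).symm z = (fun k => (z.1 k).divX, fun k => X * z.2 k - C ((z.1 k).coeff 0)) := rfl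

theorem shiftT_inl (p : Fin s → A[X]) : shiftT A s (p, 0) = ((X : A[X]) • p, 0) := by
  rw [shiftT_apply]
  refine Prod.ext (funext fun k => ?_) (funext fun k => ?_) <;> simp

theorem shiftT_symm_inr (q : Fin s → A[X]) : (shiftT A s).symm (0, q) = (0, (X : A[X]) • q) := by
  rw [shiftT_symm_apply]
  refine Prod.ext (funext fun k => ?_) (funext fun k => ?_) <;> simp

theorem shiftT_pow_snd_coeff (j : ℕ) (z : (Fin s → A[X]) × (Fin s → A[X])) (k : Fin s) (n : ℕ) :
    (((shiftT A s ^ j) z).2 k).coeff n = (z.2 k).coeff (n + j) := by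
  induction j generalizing z with
  | zero => rfl
  | succ j ih => rw [pow_succ_apply, ih, shiftT_apply, coeff_divX, add_assoc]

theorem shiftT_symm_pow_fst_coeff (j : ℕ) (z : (Fin s → A[X]) × (Fin s → A[X])) (k : Fin s)
    (n : ℕ) : ((((shiftT A s).symm ^ j) z).1 k).coeff n = (z.1 k).coeff (n + j) := by
  induction j generalizing z with
  | zero => rfl
  | succ j ih => rw [pow_succ_apply, ih, shiftT_symm_apply, coeff_divX, add_assoc]

theorem exists_shiftT_pow_snd_eq_zero (z : (Fin s → A[X]) × (Fin s → A[X])) :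
    ∃ j : ℕ, ((shiftT A s ^ j) z).2 = 0 := by
  refine ⟨Finset.univ.sup (fun k => (z.2 k).natDegree) + 1, funext fun k => ?_⟩
  ext n
  rw [shiftT_pow_snd_coeff]
  have : (z.2 k).natDegree ≤ Finset.univ.sup (fun k => (z.2 k).natDegree) :=
    Finset.le_sup (f := fun k => (z.2 k).natDegree) (Finset.mem_univ k)
  simpa using coeff_eq_zero_of_natDegree_lt (by omega)

theorem exists_shiftT_symm_pow_fst_eq_zero (z : (Fin s → A[X]) × (Fin s → A[X])) :
    ∃ j : ℕ, (((shiftT A s).symm ^ j) z).1 = 0 := by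
  refine ⟨Finset.univ.sup (fun k => (z.1 k).natDegree) + 1, funext fun k => ?_⟩
  ext n
  rw [shiftT_symm_pow_fst_coeff]
  have : (z.1 k).natDegree ≤ Finset.univ.sup (fun k => (z.1 k).natDegree) :=
    Finset.le_sup (f := fun k => (z.1 k).natDegree) (Finset.mem_univ k)
  simpa using coeff_eq_zero_of_natDegree_lt (by omega)

variable {N₀ N₁ M : Type u}
    [AddCommGroup N₀] [AddCommGroup N₁] [AddCommGroup M] [Module A N₀] [Module A N₁] [Module A M]
    [Module A[X] N₀] [Module A[X] N₁] [IsScalarTower A A[X] N₀] [IsScalarTower A A[X] N₁]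

/-- the surjection `O(-1)^s → E` on the two charts, as an `A`-linear map. -/
noncomputable def frameMap (u : Fin s → N₀) (v : Fin s → N₁) :
    ((Fin s → A[X]) × (Fin s → A[X])) →ₗ[A] (N₀ × N₁) :=
  ((Fintype.linearCombination A[X] u).restrictScalars A).prodMap
    ((Fintype.linearCombination A[X] v).restrictScalars A)

theorem frameMap_apply (u : Fin s → N₀) (v : Fin s → N₁) (z : (Fin s → A[X]) × (Fin s → A[X])) :
    frameMap u v z = (∑ k, z.1 k • u k, ∑ k, z.2 k • v k) := by
  simp [frameMap, Fintype.linearCombination_apply]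

/-- `Ψ = d_E ∘ φ` intertwines the shift with `x`. -/
theorem dC_frameMap_shiftT {r₀ : N₀ →ₗ[A] M} {r₁ : N₁ →ₗ[A] M} {xM : M ≃ₗ[A] M}
    (h₀ : ∀ n, r₀ ((X : A[X]) • n) = xM (r₀ n)) (h₁ : ∀ n, r₁ ((X : A[X]) • n) = xM.symm (r₁ n))
    (u : Fin s → N₀) (v : Fin s → N₁) (huv : ∀ k, r₀ (u k) = xM (r₁ (v k)))
    (z : (Fin s → A[X]) × (Fin s → A[X])) :
    dC r₀ r₁ (frameMap u v (shiftT A s z)) = xM (dC r₀ r₁ (frameMap u v z)) := by
  have e₀ : ∀ (p : A[X]) (a : A) (k : Fin s),
      r₀ ((X * p - C a) • u k) = xM (r₀ (p • u k)) - a • xM (r₁ (v k)) := by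
    intro p a k
    rw [sub_smul, mul_smul, map_sub, h₀, ← algebraMap_eq, algebraMap_smul, r₀.map_smul a, huv]
  have e₁ : ∀ (q : A[X]) (k : Fin s),
      xM (r₁ (q • v k)) = r₁ (q.divX • v k) + q.coeff 0 • xM (r₁ (v k)) := by
    intro q k
    conv_lhs => rw [← X_mul_divX_add q]
    rw [add_smul, mul_smul, map_add, h₁, ← algebraMap_eq, algebraMap_smul, r₁.map_smul (q.coeff 0),
      map_add, LinearEquiv.apply_symm_apply, xM.map_smul]
  rw [shiftT_apply, frameMap_apply, frameMap_apply, dC_apply, dC_apply]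
  simp only [map_sub, map_sum, e₀, e₁, Finset.sum_sub_distrib, Finset.sum_add_distrib]
  abel

end Fermat.Agent.S25.B
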