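import Fermat.Agent.S25.B.Core
import Fermat.Agent.S25.B.Shift

/-!
# S25 / layer B : `H⁰(E)` is finite when `O(-1)^s → E` is onto  (task S25/B-FiniteKer)
-/
set_option autoImplicit false
universe u
open Polynomial TensorProduct

namespace Fermat.Agent.S25.B

variable {A : Type u} [CommRing A] {N₀ N₁ M : Type u}
    [AddCommGroup N₀] [AddCommGroup N₁] [AddCommGroup M] [Module A N₀] [Module A N₁] [Module A M]
    [Module A[X] N₀] [Module A[X] N₁] [IsScalarTower A A[X] N₀] [IsScalarTower A A[X] N₁]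
    {r₀ : N₀ →ₗ[A] M} {r₁ : N₁ →ₗ[A] M} {xM : M ≃ₗ[A] M}

theorem intertwine_pow {V : Type u} [AddCommGroup V] [Module A V] (Ψ : V →ₗ[A] M) (T : V ≃ₗ[A] V)
    (x : M ≃ₗ[A] M) (hΨ : ∀ z, Ψ (T z) = x (Ψ z)) (j : ℕ) (z : V) :
    Ψ ((T ^ j) z) = (x ^ j) (Ψ z) := by
  induction j with
  | zero => rfl
  | succ j ih => rw [pow_succ_apply', pow_succ_apply', hΨ, ih]

theorem IsP1Bundle.finite_ker_of_frame (h : IsP1Bundle r₀ r₁ xM) {s : ℕ} (u : Fin s → N₀)
    (v : Fin s → N₁) (hu : Submodule.span A[X] (Set.range u) = ⊤)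
    (hv : Submodule.span A[X] (Set.range v) = ⊤) (huv : ∀ k, r₀ (u k) = xM (r₁ (v k))) :
    Module.Finite A (Ker (dC r₀ r₁)) := by
  classical
  have := h.finite₀
  have := h.projective₀
  have hfp : Module.FinitePresentation A[X] N₀ := Module.finitePresentation_of_projective _ _
  set φ₀ : (Fin s → A[X]) →ₗ[A[X]] N₀ := Fintype.linearCombination A[X] u with hφ₀d
  set φ₁ : (Fin s → A[X]) →ₗ[A[X]] N₁ := Fintype.linearCombination A[X] v with hφ₁d
  have hφ₀ : Function.Surjective φ₀ := by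
    rw [← LinearMap.range_eq_top, hφ₀d, Fintype.range_linearCombination, hu]
  have hφ₁ : Function.Surjective φ₁ := by
    rw [← LinearMap.range_eq_top, hφ₁d, Fintype.range_linearCombination, hv]
  have hK₀ : Module.Finite A[X] (LinearMap.ker φ₀) :=
    Module.Finite.iff_fg.mpr (Module.FinitePresentation.fg_ker φ₀ hφ₀)
  set T := shiftT A s with hT
  set φ : ((Fin s → A[X]) × (Fin s → A[X])) →ₗ[A] (N₀ × N₁) := frameMap u v with hφd
  have hφ_apply : ∀ z, φ z = (φ₀ z.1, φ₁ z.2) := fun z => rfl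
  have hφ : Function.Surjective φ := by
    rintro ⟨a, b⟩
    obtain ⟨p, rfl⟩ := hφ₀ a
    obtain ⟨q, rfl⟩ := hφ₁ b
    exact ⟨(p, q), rfl⟩
  set Ψ : ((Fin s → A[X]) × (Fin s → A[X])) →ₗ[A] M := dC r₀ r₁ ∘ₗ φ with hΨd
  have hΨ_apply : ∀ z, Ψ z = r₀ (φ₀ z.1) - r₁ (φ₁ z.2) := fun z => by
    rw [hΨd, LinearMap.comp_apply, dC_apply, hφ_apply]
  have hΨT : ∀ z, Ψ (T z) = xM (Ψ z) :=
    dC_frameMap_shiftT h.semilinear₀ h.semilinear₁ u v huv
  have hΨTs : ∀ z, Ψ (T.symm z) = xM.symm (Ψ z) := fun z => by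
    rw [LinearEquiv.eq_symm_apply, ← hΨT, LinearEquiv.apply_symm_apply]
  set r : LinearMap.ker φ₀ →ₗ[A] ((Fin s → A[X]) × (Fin s → A[X])) :=
    LinearMap.inl A _ _ ∘ₗ ((LinearMap.ker φ₀).subtype.restrictScalars A) with hrd
  have hr_apply : ∀ n : LinearMap.ker φ₀, r n = ((n : Fin s → A[X]), 0) := fun n => rfl
  have hΨr : ∀ n, Ψ (r n) = 0 := fun n => by
    have hn : φ₀ (n : Fin s → A[X]) = 0 := n.2
    rw [hΨ_apply, hr_apply]
    simp [hn]
  set L₁ : Submodule A ((Fin s → A[X]) × (Fin s → A[X])) :=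
    ((LinearMap.ker φ₁).restrictScalars A).map (LinearMap.inr A _ _) with hL₁d
  have hL₁_mem : ∀ q : Fin s → A[X], φ₁ q = 0 → ((0, q) : (Fin s → A[X]) × (Fin s → A[X])) ∈ L₁ :=
    fun q hq => ⟨q, hq, rfl⟩
  obtain ⟨S, hS, hWS⟩ := core_fg T r
    (fun n => by rw [hr_apply, hr_apply, hT, shiftT_inl]; rfl)
    (LinearMap.ker Ψ) L₁
    (fun w hw => by
      obtain ⟨j, hj⟩ := exists_shiftT_pow_snd_eq_zero w
      have h0 : Ψ ((T ^ j) w) = 0 := by
        rw [intertwine_pow Ψ T xM hΨT, LinearMap.mem_ker.mp hw, map_zero]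
      rw [hΨ_apply, hj, map_zero, map_zero, sub_zero] at h0
      have h1 : φ₀ ((T ^ j) w).1 = 0 := h.inj₀ (by rw [h0, map_zero])
      exact ⟨j, ⟨((T ^ j) w).1, h1⟩, Prod.ext rfl hj⟩)
    (by
      rintro _ ⟨q, hq, rfl⟩
      have hq' : φ₁ q = 0 := hq
      have : T.symm (LinearMap.inr A _ _ q) = (0, (X : A[X]) • q) := shiftT_symm_inr q
      rw [this]
      exact hL₁_mem _ (by rw [map_smul, hq', smul_zero]))
    (fun n => by
      obtain ⟨j, hj⟩ := exists_shiftT_symm_pow_fst_eq_zero (r n)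
      refine ⟨j, ?_⟩
      have h0 : Ψ ((T.symm ^ j) (r n)) = 0 := by
        rw [intertwine_pow Ψ T.symm xM.symm hΨTs, hΨr, map_zero]
      rw [hΨ_apply, hj, map_zero, map_zero, zero_sub, neg_eq_zero] at h0
      have h1 : φ₁ ((T.symm ^ j) (r n)).2 = 0 := h.inj₁ (by rw [h0, map_zero])
      have h2 : (T.symm ^ j) (r n) = (0, ((T.symm ^ j) (r n)).2) := Prod.ext hj rfl
      rw [h2]
      exact hL₁_mem _ h1)
  -- conclusion
  have hker : Ker (dC r₀ r₁) = (LinearMap.ker Ψ).map φ := by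
    rw [hΨd, LinearMap.ker_comp, Submodule.map_comap_eq_of_surjective hφ]
  have hSW : ∀ z ∈ S, z ∈ LinearMap.ker Ψ := by
    intro z hz
    obtain ⟨c, n, rfl⟩ := hS z hz
    rw [LinearMap.mem_ker, intertwine_pow Ψ T.symm xM.symm hΨTs, hΨr, map_zero]
  have hfin : Ker (dC r₀ r₁) = Submodule.span A (φ '' (S : Set _)) := by
    apply le_antisymm
    · rw [hker]
      refine (Submodule.map_mono hWS).trans ?_
      rw [Submodule.map_sup, Submodule.map_sup, Submodule.map_span]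
      refine sup_le (sup_le le_rfl ?_) ?_
      · rintro _ ⟨_, ⟨n, rfl⟩, rfl⟩
        have hn : φ₀ (n : Fin s → A[X]) = 0 := n.2
        have h0 : φ (r n) = 0 := by
          rw [hφ_apply, hr_apply]
          simp [hn]
        rw [h0]
        exact Submodule.zero_mem _
      · rintro _ ⟨_, ⟨q, hq, rfl⟩, rfl⟩
        have hq' : φ₁ q = 0 := hq
        have h0 : φ (LinearMap.inr A _ _ q) = 0 := by
          rw [hφ_apply]
          simp [hq']
        rw [h0]
        exact Submodule.zero_mem _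
    · rw [Submodule.span_le, hker]
      rintro _ ⟨z, hz, rfl⟩
      exact ⟨z, hSW z hz, rfl⟩
  rw [Module.Finite.iff_fg, hfin]
  exact Submodule.fg_span ((S.finite_toSet).image φ)

end Fermat.Agent.S25.B
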