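import Fermat.Agent.S25.B.Basic

/-!
# S25 / layer B : `E(i+1)` is globally generated for `i ≫ 0`  (task S25/B-Frame)
-/
set_option autoImplicit false
universe u
open Polynomial TensorProduct

namespace Fermat.Agent.S25.B

variable {A : Type u} [CommRing A] {N₀ N₁ M : Type u}
    [AddCommGroup N₀] [AddCommGroup N₁] [AddCommGroup M] [Module A N₀] [Module A N₁] [Module A M]
    [Module A[X] N₀] [Module A[X] N₁] [IsScalarTower A A[X] N₀] [IsScalarTower A A[X] N₁]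
    {r₀ : N₀ →ₗ[A] M} {r₁ : N₁ →ₗ[A] M} {xM : M ≃ₗ[A] M}

/-- uniform bound: a finite family of elements of `M` is moved into `range r` by `T^c`, `c ≥ a`. -/
theorem frame_bound {N : Type u} [AddCommGroup N] [Module A N] [Module A[X] N]
    (T : M ≃ₗ[A] M) (r : N →ₗ[A] M) (hr : ∀ n, r ((X : A[X]) • n) = T (r n))
    (hspan : ∀ m : M, ∃ (j : ℕ) (n : N), (T ^ j) m = r n) {s : ℕ} (e : Fin s → M) :
    ∃ a : ℕ, ∀ c ≥ a, ∀ l, ∃ n : N, (T ^ c) (e l) = r n := by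
  choose J n hJ using hspan
  refine ⟨Finset.univ.sup (fun l => J (e l)), fun c hc l => ?_⟩
  have hle : J (e l) ≤ c := le_trans (Finset.le_sup (f := fun l => J (e l)) (Finset.mem_univ l)) hc
  obtain ⟨k, rfl⟩ := Nat.exists_eq_add_of_le' hle
  exact ⟨(X : A[X]) ^ k • n (e l), by rw [pow_add_apply, hJ, map_X_pow_smul hr]⟩

/-- For `i ≫ 0` there is a surjection `O(-1)^s → E(i)`: families `u`, `v` generating `N₀`, `N₁` with
`r₀ (u k) = x · x^i r₁ (v k)`.
Proof: `e_l` generators of `N₀`, `f_k` of `N₁`; for `c ≫ 0`, `x^{-c} r₀ e_l ∈ r₁ N₁` and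
`x^c r₁ f_k ∈ r₀ N₀`; index set `Fin s₀ ⊕ Fin s₁ ≃ Fin (s₀ + s₁)`; `u = (e_l, r₀⁻¹ x^{i+1} r₁ f_k)`,
`v = (r₁⁻¹ x^{-i-1} r₀ e_l, f_k)`. -/
theorem IsP1Bundle.exists_twist_frame (h : IsP1Bundle r₀ r₁ xM) :
    ∃ m₁ : ℕ, ∀ i ≥ m₁, ∃ (s : ℕ) (u : Fin s → N₀) (v : Fin s → N₁),
      Submodule.span A[X] (Set.range u) = ⊤ ∧ Submodule.span A[X] (Set.range v) = ⊤ ∧
      ∀ k, r₀ (u k) = xM (tw xM r₁ i (v k)) := by
  have := h.finite₀
  have := h.finite₁
  obtain ⟨s₀, e, he⟩ := Module.Finite.exists_fin (R := A[X]) (M := N₀)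
  obtain ⟨s₁, f, hf⟩ := Module.Finite.exists_fin (R := A[X]) (M := N₁)
  obtain ⟨a, ha⟩ := frame_bound xM.symm r₁ h.semilinear₁ h.span₁ (fun l => r₀ (e l))
  obtain ⟨b, hb⟩ := frame_bound xM r₀ h.semilinear₀ h.span₀ (fun k => r₁ (f k))
  refine ⟨max a b, fun i hi => ?_⟩
  choose e' he' using ha (i + 1) (by have := le_max_left a b; omega)
  choose f' hf' using hb (i + 1) (by have := le_max_right a b; omega)
  refine ⟨s₀ + s₁, Fin.append e f', Fin.append e' f, ?_, ?_, ?_⟩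
  · rw [eq_top_iff, ← he]
    apply Submodule.span_mono
    rintro _ ⟨l, rfl⟩
    exact ⟨Fin.castAdd s₁ l, Fin.append_left _ _ _⟩
  · rw [eq_top_iff, ← hf]
    apply Submodule.span_mono
    rintro _ ⟨l, rfl⟩
    exact ⟨Fin.natAdd s₀ l, Fin.append_right _ _ _⟩
  · intro k
    rw [tw_apply, ← pow_succ_apply']
    induction k using Fin.addCases with
    | left l =>
      rw [Fin.append_left, Fin.append_left, ← he', pow_apply_symm_pow]
    | right l =>
      rw [Fin.append_right, Fin.append_right, ← hf']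

end Fermat.Agent.S25.B
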