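import Fermat.Agent.S25.B.Basic

/-!
# S25 / layer B : projectivity over `A` of `A[X]`-projective modules and of `N / X^i N`
(task S25/B-ProjA)
-/
set_option autoImplicit false
universe u
open Polynomial TensorProduct

namespace Fermat.Agent.S25.B

variable (A : Type u) [CommRing A] (N : Type u) [AddCommGroup N] [Module A N] [Module A[X] N]
  [IsScalarTower A A[X] N]

/-- `A[X]` is `A`-free, so `A[X]`-projective modules are `A`-projective
(retract of `N →₀ A[X]`, see `Module.projective_def'`, `Module.Projective.of_split`). -/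
theorem projective_of_polynomial [Module.Projective A[X] N] : Module.Projective A N := by
  obtain ⟨s, hs⟩ := (Module.projective_def' (R := A[X]) (P := N)).mp inferInstance
  refine Module.Projective.of_split (s.restrictScalars A)
    ((Finsupp.linearCombination A[X] id).restrictScalars A) ?_
  ext n
  exact LinearMap.congr_fun hs n

namespace QuotPow

variable (t i : ℕ)

/-- coefficients of degree `< i`. -/
noncomputable def trunc : (Fin t → A[X]) →ₗ[A] (Fin t → Fin i → A) where
  toFun p := fun l k => (p l).coeff k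
  map_add' p q := by ext l k; simp
  map_smul' a p := by ext l k; simp

/-- the polynomial vector with given coefficients of degree `< i`. -/
noncomputable def untrunc : (Fin t → Fin i → A) →ₗ[A] (Fin t → A[X]) where
  toFun c := fun l => ∑ k : Fin i, monomial (k : ℕ) (c l k)
  map_add' c d := by ext l : 1; simp [Finset.sum_add_distrib]
  map_smul' a c := by ext l : 1; simp [Finset.smul_sum, smul_monomial]

variable {A t i}

theorem trunc_X_pow_smul (g : Fin t → A[X]) : trunc A t i ((X : A[X]) ^ i • g) = 0 := by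
  ext l k
  have : ¬ i ≤ (k : ℕ) := not_le.mpr k.2
  simp [trunc, coeff_X_pow_mul', this]

theorem exists_eq_untrunc_add (p : Fin t → A[X]) :
    ∃ g : Fin t → A[X], p = untrunc A t i (trunc A t i p) + (X : A[X]) ^ i • g := by
  have key : ∀ l, (X : A[X]) ^ i ∣ p l - untrunc A t i (trunc A t i p) l := by
    intro l
    rw [X_pow_dvd_iff]
    intro d hd
    have : (∑ k : Fin i, (monomial (k : ℕ) ((p l).coeff k)).coeff d) = (p l).coeff d := by
      rw [Finset.sum_eq_single (⟨d, hd⟩ : Fin i)]
      · simp
      · intro b _ hb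
        rw [coeff_monomial, if_neg]
        intro hbd
        exact hb (Fin.ext hbd)
      · intro h
        exact absurd (Finset.mem_univ _) h
    simp [untrunc, trunc, this]
  choose g hg using key
  refine ⟨g, funext fun l => ?_⟩
  simp only [Pi.add_apply, Pi.smul_apply, smul_eq_mul, ← hg l]
  ring

end QuotPow

open QuotPow

variable {A N} in
theorem mkQ_untrunc_trunc {t : ℕ} (i : ℕ) (τ : (Fin t → A[X]) →ₗ[A[X]] N) (p : Fin t → A[X]) :
    (LinearMap.range (smulP N ((X : A[X]) ^ i))).mkQ (τ (untrunc A t i (trunc A t i p))) =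
      (LinearMap.range (smulP N ((X : A[X]) ^ i))).mkQ (τ p) := by
  obtain ⟨g, hg⟩ := exists_eq_untrunc_add (i := i) p
  conv_rhs => rw [hg]
  rw [map_add, map_add, left_eq_add, map_smul, Submodule.mkQ_apply, Submodule.Quotient.mk_eq_zero]
  exact ⟨τ g, rfl⟩

/-- `N / X^i N` is a retract of `(A[X]/X^i)^t = A^{t i}`. -/
theorem finite_quot_pow [Module.Finite A[X] N] (i : ℕ) :
    Module.Finite A (N ⧸ LinearMap.range (smulP N ((X : A[X]) ^ i))) := by
  obtain ⟨t, τ, hτ⟩ := Module.Finite.exists_fin' A[X] N
  refine Module.Finite.of_surjective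
    ((LinearMap.range (smulP N ((X : A[X]) ^ i))).mkQ ∘ₗ (τ.restrictScalars A) ∘ₗ untrunc A t i) ?_
  intro c
  obtain ⟨n, rfl⟩ := Submodule.mkQ_surjective _ c
  obtain ⟨p, rfl⟩ := hτ n
  exact ⟨trunc A t i p, mkQ_untrunc_trunc i τ p⟩

theorem projective_quot_pow [Module.Finite A[X] N] [Module.Projective A[X] N] (i : ℕ) :
    Module.Projective A (N ⧸ LinearMap.range (smulP N ((X : A[X]) ^ i))) := by
  obtain ⟨t, τ, hτ⟩ := Module.Finite.exists_fin' A[X] N
  obtain ⟨σ, hσ⟩ := Module.projective_lifting_property τ LinearMap.id hτ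
  refine Module.Projective.of_split
    ((LinearMap.range (smulP N ((X : A[X]) ^ i))).liftQ (trunc A t i ∘ₗ σ.restrictScalars A) ?_)
    ((LinearMap.range (smulP N ((X : A[X]) ^ i))).mkQ ∘ₗ (τ.restrictScalars A) ∘ₗ untrunc A t i) ?_
  · rintro _ ⟨n, rfl⟩
    rw [LinearMap.mem_ker, LinearMap.comp_apply, smulP_apply, LinearMap.restrictScalars_apply,
      map_smul, trunc_X_pow_smul]
  · refine LinearMap.ext fun c => ?_
    obtain ⟨n, rfl⟩ := Submodule.mkQ_surjective _ c
    have h1 : τ (σ n) = n := LinearMap.congr_fun hσ n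
    have h2 := mkQ_untrunc_trunc i τ (σ n)
    rw [h1] at h2
    simpa using h2

end Fermat.Agent.S25.B
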