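import Fermat.Agent.S25.B.Basic

/-!
# S25 / layer B : `M = N₀[1/X]` is `A`-projective  (task S25/B-ProjM)
-/
set_option autoImplicit false
universe u
open Polynomial TensorProduct LaurentPolynomial

namespace Fermat.Agent.S25.B

/-- projective over a free algebra implies projective over the base. -/
theorem projective_trans (A B P : Type u) [CommRing A] [CommRing B] [Algebra A B] [Module.Free A B]
    [AddCommGroup P] [Module A P] [Module B P] [IsScalarTower A B P] [Module.Projective B P] :
    Module.Projective A P := by
  obtain ⟨s, hs⟩ := (Module.projective_def' (R := B) (P := P)).mp inferInstance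
  refine Module.Projective.of_split (s.restrictScalars A)
    ((Finsupp.linearCombination B id).restrictScalars A) ?_
  ext n
  exact LinearMap.congr_fun hs n

variable {A : Type u} [CommRing A]

theorem isScalarTower_laurent : IsScalarTower A A[X] A[T;T⁻¹] :=
  IsScalarTower.of_algebraMap_eq (fun a => by simp [LaurentPolynomial.algebraMap_eq_toLaurent])

theorem free_localization_X : Module.Free A (Localization (Submonoid.powers (X : A[X]))) := by
  have := isScalarTower_laurent (A := A)
  exact Module.Free.of_equiv ((IsLocalization.algEquiv (Submonoid.powers (X : A[X])) A[T;T⁻¹]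
    (Localization (Submonoid.powers (X : A[X])))).toLinearEquiv.restrictScalars A)

variable {N M : Type u}
    [AddCommGroup N] [AddCommGroup M] [Module A N] [Module A M]
    [Module A[X] N] [IsScalarTower A A[X] N]

theorem aeval_X_pow_smul_of (xM : M ≃ₗ[A] M) (j : ℕ) (m : M) :
    ((X : A[X]) ^ j) • Module.AEval'.of xM.toLinearMap m =
      Module.AEval'.of xM.toLinearMap ((xM ^ j) m) := by
  induction j with
  | zero => simp
  | succ j ih =>
    rw [pow_succ', mul_smul, ih, Module.AEval'.X_smul_of, pow_succ_apply']
    rfl

/-- `r` as an `A[X]`-linear map. -/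
noncomputable def latticeMap (r : N →ₗ[A] M) (xM : M ≃ₗ[A] M)
    (hr : ∀ n, r ((X : A[X]) • n) = xM (r n)) : N →ₗ[A[X]] Module.AEval' xM.toLinearMap where
  toFun n := Module.AEval'.of xM.toLinearMap (r n)
  map_add' a b := by rw [map_add, map_add]
  map_smul' p n := by
    simp only [RingHom.id_apply]
    induction p using Polynomial.induction_on' with
    | add p q hp hq => rw [add_smul, add_smul, map_add, map_add, hp, hq]
    | monomial c a =>
      rw [← C_mul_X_pow_eq_monomial, mul_smul, mul_smul, aeval_X_pow_smul_of, Module.AEval.C_smul,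
        ← algebraMap_eq, algebraMap_smul, map_smul, map_smul, map_X_pow_smul hr]

theorem latticeMap_apply (r : N →ₗ[A] M) (xM : M ≃ₗ[A] M)
    (hr : ∀ n, r ((X : A[X]) • n) = xM (r n)) (n : N) :
    latticeMap r xM hr n = Module.AEval'.of xM.toLinearMap (r n) := rfl

theorem isLocalizedModule_latticeMap (r : N →ₗ[A] M) (xM : M ≃ₗ[A] M)
    (hinj : Function.Injective r) (hr : ∀ n, r ((X : A[X]) • n) = xM (r n))
    (hspan : ∀ m : M, ∃ (j : ℕ) (n : N), (xM ^ j) m = r n) :
    IsLocalizedModule (Submonoid.powers (X : A[X])) (latticeMap r xM hr) where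
  map_units := by
    rintro ⟨_, j, rfl⟩
    rw [Module.End.isUnit_iff]
    constructor
    · intro a b hab
      obtain ⟨a, rfl⟩ := (Module.AEval'.of xM.toLinearMap).surjective a
      obtain ⟨b, rfl⟩ := (Module.AEval'.of xM.toLinearMap).surjective b
      simp only [Module.algebraMap_end_apply, aeval_X_pow_smul_of] at hab
      rw [(xM ^ j).injective ((Module.AEval'.of xM.toLinearMap).injective hab)]
    · intro b
      obtain ⟨b, rfl⟩ := (Module.AEval'.of xM.toLinearMap).surjective b
      refine ⟨Module.AEval'.of xM.toLinearMap ((xM.symm ^ j) b), ?_⟩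
      simp only [Module.algebraMap_end_apply, aeval_X_pow_smul_of, pow_apply_symm_pow]
  surj := by
    intro y
    obtain ⟨m, rfl⟩ := (Module.AEval'.of xM.toLinearMap).surjective y
    obtain ⟨j, n, hjn⟩ := hspan m
    refine ⟨(n, ⟨(X : A[X]) ^ j, j, rfl⟩), ?_⟩
    rw [latticeMap_apply, ← hjn, ← aeval_X_pow_smul_of]
    rfl
  exists_of_eq := by
    intro a b hab
    refine ⟨1, ?_⟩
    rw [hinj ((Module.AEval'.of xM.toLinearMap).injective hab)]

/-- `M` is the localisation of the projective `A[X]`-module `N` at `X`, hence a retract of a free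
`A[T;T⁻¹]`-module, hence `A`-projective. -/
theorem projective_of_lattice [Module.Projective A[X] N] (r : N →ₗ[A] M) (xM : M ≃ₗ[A] M)
    (hinj : Function.Injective r) (hr : ∀ n, r ((X : A[X]) • n) = xM (r n))
    (hspan : ∀ m : M, ∃ (j : ℕ) (n : N), (xM ^ j) m = r n) : Module.Projective A M := by
  have := free_localization_X (A := A)
  have hP : Module.Projective A (LocalizedModule (Submonoid.powers (X : A[X])) N) :=
    projective_trans A (Localization (Submonoid.powers (X : A[X]))) _
  have := isLocalizedModule_latticeMap r xM hinj hr hspan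
  exact Module.Projective.of_equiv
    (((IsLocalizedModule.iso (Submonoid.powers (X : A[X])) (latticeMap r xM hr)).restrictScalars
      A).trans (Module.AEval'.of xM.toLinearMap).symm)

end Fermat.Agent.S25.B
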