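import Fermat.Agent.S25.B.Abstract
import Fermat.Agent.S25.B.Core
import Fermat.Agent.S25.B.ProjA
import Fermat.Agent.S25.B.ProjM
import Fermat.Agent.S25.B.Frame
import Fermat.Agent.S25.B.FiniteKer

set_option autoImplicit false
universe u
open Polynomial TensorProduct

namespace Fermat.Agent.S25.B

variable {A : Type u} [CommRing A] {N₀ N₁ M : Type u}
    [AddCommGroup N₀] [AddCommGroup N₁] [AddCommGroup M] [Module A N₀] [Module A N₁] [Module A M]
    [Module A[X] N₀] [Module A[X] N₁] [IsScalarTower A A[X] N₀] [IsScalarTower A A[X] N₁]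
    {r₀ : N₀ →ₗ[A] M} {r₁ : N₁ →ₗ[A] M} {xM : M ≃ₗ[A] M}

/-- **(B★)** main theorem of layer B. -/
theorem IsP1Bundle.exists_perfect (h : IsP1Bundle r₀ r₁ xM) :
    ∃ (E₀ E₁ : Type u) (_ : AddCommGroup E₀) (_ : AddCommGroup E₁) (_ : Module A E₀)
      (_ : Module A E₁) (δ : E₀ →ₗ[A] E₁),
      Module.Finite A E₀ ∧ Module.Projective A E₀ ∧ Module.Finite A E₁ ∧ Module.Projective A E₁ ∧
      ComputesUniversally (dC r₀ r₁) δ := by
  obtain ⟨m₀, hm₀⟩ := h.exists_twist_surjective
  obtain ⟨m₁, hm₁⟩ := h.exists_twist_frame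
  set i := max m₀ m₁ with hi
  have hsurj := hm₀ i (le_max_left _ _)
  obtain ⟨s, u, v, hu, hv, huv⟩ := hm₁ i (le_max_right _ _)
  have hfin : Module.Finite A (Ker (dC r₀ (tw xM r₁ i))) :=
    (h.twist i).finite_ker_of_frame u v hu hv huv
  have := h.finite₀
  have := h.finite₁
  have := h.projective₀
  have := h.projective₁
  have hM : Module.Projective A M := projective_of_lattice r₀ xM h.inj₀ h.semilinear₀ h.span₀
  have : Module.Projective A N₀ := projective_of_polynomial A N₀
  have : Module.Projective A N₁ := projective_of_polynomial A N₁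
  have hCf := finite_quot_pow A N₁ i
  have hCp := projective_quot_pow A N₁ i
  -- the kernel of the split surjection is projective
  have hproj : Module.Projective A (Ker (dC r₀ (tw xM r₁ i))) := by
    obtain ⟨σ, hσ⟩ := Module.projective_lifting_property (dC r₀ (tw xM r₁ i)) LinearMap.id hsurj
    let d' := dC r₀ (tw xM r₁ i)
    let ρ : (N₀ × N₁) →ₗ[A] Ker d' :=
      (LinearMap.id - σ ∘ₗ d').codRestrict (LinearMap.ker d') (fun c => by
        have : d' (σ (d' c)) = d' c := LinearMap.congr_fun hσ (d' c)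
        simp [this])
    refine Module.Projective.of_split (LinearMap.ker d').subtype ρ ?_
    refine LinearMap.ext fun ⟨c, hc⟩ => Subtype.ext ?_
    have hc' : d' c = 0 := hc
    simp [ρ, hc']
  refine ⟨Ker (dC r₀ (tw xM r₁ i)), N₁ ⧸ LinearMap.range (smulP N₁ ((X : A[X]) ^ i)),
    inferInstance, inferInstance, inferInstance, inferInstance,
    ((LinearMap.range (smulP N₁ ((X : A[X]) ^ i))).mkQ ∘ₗ LinearMap.snd A N₀ N₁) ∘ₗ
      (LinearMap.ker (dC r₀ (tw xM r₁ i))).subtype, hfin, hproj, hCf, hCp, ?_⟩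
  rw [← h.dC_tw_comp i]
  refine computesUniversally_of_exact _ _ _ ?_ ?_ ?_ hsurj
  · rintro ⟨a, b⟩ ⟨a', b'⟩ hab
    simp only [LinearMap.prodMap_apply, LinearMap.id_coe, id_eq, Prod.mk.injEq] at hab
    rw [hab.1, h.smulP_injective i hab.2]
  · exact (Submodule.mkQ_surjective _).comp LinearMap.snd_surjective
  · rintro ⟨a, b⟩
    simp only [LinearMap.coe_comp, Function.comp_apply, LinearMap.snd_apply, Submodule.mkQ_apply,
      Submodule.Quotient.mk_eq_zero, LinearMap.mem_range, Set.mem_range, Prod.exists,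
      LinearMap.prodMap_apply, LinearMap.id_coe, id_eq, Prod.mk.injEq]
    constructor
    · rintro ⟨y, hy⟩
      exact ⟨a, y, rfl, hy⟩
    · rintro ⟨_, y, -, hy⟩
      exact ⟨y, hy⟩

end Fermat.Agent.S25.B
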