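import Fermat.Agent.S25.B.Defs

/-! # S25 / layer B8 : two-term complexes of f.g. projective modules -/
set_option autoImplicit false
universe u
open Polynomial TensorProduct

namespace Fermat.Agent.S25.B

variable {A : Type u} [CommRing A] {E₀ E₁ : Type u} [AddCommGroup E₀] [AddCommGroup E₁]
  [Module A E₀] [Module A E₁] [Module.Finite A E₀] [Module.Projective A E₀]
  [Module.Finite A E₁] [Module.Projective A E₁] (δ : E₀ →ₗ[A] E₁)

/-- dimension of the kernel / cokernel of `δ ⊗ K`. -/
noncomputable def h0At {A : Type u} [CommRing A] {P Q : Type u} [AddCommGroup P] [AddCommGroup Q]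
    [Module A P] [Module A Q] (d : P →ₗ[A] Q) (K : Type u) [Field K] [Algebra A K] : ℕ :=
  Module.finrank K (Ker (d.baseChange K))
noncomputable def h1At {A : Type u} [CommRing A] {P Q : Type u} [AddCommGroup P] [AddCommGroup Q]
    [Module A P] [Module A Q] (d : P →ₗ[A] Q) (K : Type u) [Field K] [Algebra A K] : ℕ :=
  Module.finrank K (Coker (d.baseChange K))

namespace Perf

section general

variable {A : Type u} [CommRing A] {P Q : Type u} [AddCommGroup P] [AddCommGroup Q]
    [Module A P] [Module A Q]

/-- The point of `Spec A` defined by a field valued point. -/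
abbrev pt (A : Type u) [CommRing A] (K : Type u) [Field K] [Algebra A K] : PrimeSpectrum A :=
  PrimeSpectrum.comap (algebraMap A K) ⊥

/-- The dimension of the fibre `K ⊗ C` only depends on the point of `Spec A`. -/
theorem finrank_tensor_eq_residueField (C : Type u) [AddCommGroup C] [Module A C]
    (K : Type u) [Field K] [Algebra A K] :
    Module.finrank K (K ⊗[A] C) =
      Module.finrank (pt A K).asIdeal.ResidueField ((pt A K).asIdeal.ResidueField ⊗[A] C) := by
  have h1 : (pt A K).asIdeal ≤ RingHom.ker (algebraMap A K) := by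
    intro x hx
    simpa [pt, Ideal.mem_comap] using hx
  have h2 : (pt A K).asIdeal.primeCompl ≤ (IsUnit.submonoid K).comap (algebraMap A K) := by
    intro x hx
    have : algebraMap A K x ≠ 0 := by
      intro h0
      apply hx
      simpa [pt, Ideal.mem_comap] using h0
    exact this.isUnit
  let φ : (pt A K).asIdeal.ResidueField →+* K :=
    Ideal.ResidueField.lift (pt A K).asIdeal (algebraMap A K) h1 h2
  let _ : Algebra (pt A K).asIdeal.ResidueField K := φ.toAlgebra
  have : IsScalarTower A (pt A K).asIdeal.ResidueField K :=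
    IsScalarTower.of_algebraMap_eq fun r =>
      (Ideal.ResidueField.lift_algebraMap (pt A K).asIdeal (algebraMap A K) h1 h2 r).symm
  let e : K ⊗[(pt A K).asIdeal.ResidueField] ((pt A K).asIdeal.ResidueField ⊗[A] C) ≃ₗ[K]
      K ⊗[A] C := AlgebraTensorModule.cancelBaseChange A _ K K C
  rw [← e.finrank_eq, Module.finrank_baseChange]

/-- The cokernel commutes with base change. -/
noncomputable def cokerBaseChangeEquiv (d : P →ₗ[A] Q) (A' : Type u) [CommRing A'] [Algebra A A'] :
    Coker (d.baseChange A') ≃ₗ[A'] A' ⊗[A] Coker d := by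
  let g : A' ⊗[A] Q →ₗ[A'] A' ⊗[A] Coker d := (LinearMap.range d).mkQ.baseChange A'
  have hsurj : Function.Surjective g :=
    LinearMap.lTensor_surjective A' (Submodule.mkQ_surjective _)
  have hex : Function.Exact (d.lTensor A') ((LinearMap.range d).mkQ.lTensor A') :=
    lTensor_exact A' (LinearMap.exact_map_mkQ_range d) (Submodule.mkQ_surjective _)
  have hker : LinearMap.range (d.baseChange A') = LinearMap.ker g := by
    ext x
    rw [LinearMap.mem_ker]
    exact (hex x).symm
  exact (Submodule.quotEquivOfEq _ _ hker).trans (g.quotKerEquivOfSurjective hsurj)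

theorem h1At_eq_finrank_coker (d : P →ₗ[A] Q) (K : Type u) [Field K] [Algebra A K] :
    h1At d K = Module.finrank K (K ⊗[A] Coker d) :=
  (cokerBaseChangeEquiv d K).finrank_eq

/-- `h¹` only depends on the point (no finiteness needed). -/
theorem h1At_eq_residueField' (d : P →ₗ[A] Q) (K : Type u) [Field K] [Algebra A K] :
    h1At d K = h1At d (pt A K).asIdeal.ResidueField := by
  rw [h1At_eq_finrank_coker, h1At_eq_finrank_coker, finrank_tensor_eq_residueField]

/-- Rank–nullity. -/
theorem h0At_add [Module.Finite A P] [Module.Finite A Q] (d : P →ₗ[A] Q)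
    (K : Type u) [Field K] [Algebra A K] :
    h0At d K + Module.finrank K (K ⊗[A] Q) = Module.finrank K (K ⊗[A] P) + h1At d K := by
  have h1 := LinearMap.finrank_range_add_finrank_ker (d.baseChange K)
  have h2 := Submodule.finrank_quotient_add_finrank (LinearMap.range (d.baseChange K))
  unfold h0At h1At Ker Coker
  omega

/-- If `q` is not in the support of the cokernel of `Aⁿ → C`, the fibre of `C` at `q` has dimension
at most `n`. -/
theorem finrank_fibre_le {C : Type u} [AddCommGroup C] [Module A C] [Module.Finite A C] {n : ℕ}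
    (d : (ULift.{u} (Fin n) → A) →ₗ[A] C) (q : PrimeSpectrum A)
    (hq : q ∉ Module.support A (Coker d)) :
    Module.finrank q.asIdeal.ResidueField (q.asIdeal.ResidueField ⊗[A] C) ≤ n := by
  have h1 := h0At_add d q.asIdeal.ResidueField
  have h2 : h1At d q.asIdeal.ResidueField = 0 := by
    rw [h1At_eq_finrank_coker]
    rw [Module.mem_support_iff_nontrivial_residueField_tensorProduct,
      not_nontrivial_iff_subsingleton] at hq
    exact Module.finrank_zero_of_subsingleton
  have h3 : Module.finrank q.asIdeal.ResidueField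
      (q.asIdeal.ResidueField ⊗[A] (ULift.{u} (Fin n) → A)) = n := by
    have : Nontrivial A := ⟨⟨0, 1, fun h => q.isPrime.ne_top (by
      rw [Ideal.eq_top_iff_one, ← h]; exact zero_mem _)⟩⟩
    rw [Module.finrank_baseChange]
    simp
  omega

/-- Nakayama: `n = dim κ(p) ⊗ C` elements generate `C` near `p`. -/
theorem exists_map_notMem_support (C : Type u) [AddCommGroup C] [Module A C] [Module.Finite A C]
    (p : PrimeSpectrum A) :
    ∃ d : (ULift.{u} (Fin (Module.finrank p.asIdeal.ResidueField
        (p.asIdeal.ResidueField ⊗[A] C))) → A) →ₗ[A] C, p ∉ Module.support A (Coker d) := by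
  set κ := p.asIdeal.ResidueField with hκ
  set s : Set (κ ⊗[A] C) := Set.range (TensorProduct.mk A κ C 1) with hs
  have hspan : Submodule.span κ s = ⊤ := by
    have := Submodule.baseChange_top (R := A) (A := κ) (M := C)
    rw [Submodule.baseChange_eq_span] at this
    rw [← this, hs]
    congr 1
    ext x
    simp
  have hfin : Module.Finite κ (Submodule.span κ s) := by rw [hspan]; infer_instance
  obtain ⟨f, hf, hfs, -⟩ := Submodule.exists_fun_fin_finrank_span_eq κ s
  replace hfs : Submodule.span κ (Set.range f) = ⊤ := hfs.trans hspan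
  have hn : Module.finrank κ (Submodule.span κ s) = Module.finrank κ (κ ⊗[A] C) := by
    rw [hspan, finrank_top]
  choose x hx using hf
  let d : (ULift.{u} (Fin (Module.finrank κ (κ ⊗[A] C))) → A) →ₗ[A] C :=
    Fintype.linearCombination A (fun i => x (Fin.cast hn.symm i.down))
  refine ⟨d, ?_⟩
  rw [Module.mem_support_iff_nontrivial_residueField_tensorProduct,
      not_nontrivial_iff_subsingleton]
  have hsurj : LinearMap.range (d.baseChange κ) = ⊤ := by
    rw [eq_top_iff, ← hfs, Submodule.span_le]
    rintro _ ⟨i, rfl⟩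
    refine ⟨1 ⊗ₜ Pi.single ⟨Fin.cast hn i⟩ 1, ?_⟩
    rw [LinearMap.baseChange_tmul, ← hx i]
    simp [d, Fintype.linearCombination_apply_single]
  have : Subsingleton (Coker (d.baseChange κ)) := by
    rw [Submodule.Quotient.subsingleton_iff]
    exact hsurj
  exact (cokerBaseChangeEquiv d κ).symm.toEquiv.subsingleton

/-- Upper semicontinuity of the fibre dimension of a finite module. -/
theorem isClosed_setOf_le_finrank (C : Type u) [AddCommGroup C] [Module A C] [Module.Finite A C]
    (c : ℕ) :
    IsClosed {p : PrimeSpectrum A |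
      c ≤ Module.finrank p.asIdeal.ResidueField (p.asIdeal.ResidueField ⊗[A] C)} := by
  rw [← isOpen_compl_iff, isOpen_iff_forall_mem_open]
  intro p hp
  simp only [Set.mem_compl_iff, Set.mem_ofPred_eq, not_le] at hp
  obtain ⟨d, hd⟩ := exists_map_notMem_support C p
  refine ⟨(Module.support A (Coker d))ᶜ, ?_, Module.isClosed_support.isOpen_compl, hd⟩
  intro q hq
  simp only [Set.mem_compl_iff, Set.mem_ofPred_eq, not_le]
  exact lt_of_le_of_lt (finrank_fibre_le d q hq) hp

/-- If `d` is surjective onto a projective module, its kernel commutes with base change. -/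
theorem exists_ker_baseChange_equiv [Module.Projective A Q] (d : P →ₗ[A] Q)
    (h : Function.Surjective d) (A' : Type u) [CommRing A'] [Algebra A A'] :
    ∃ e : A' ⊗[A] Ker d ≃ₗ[A'] Ker (d.baseChange A'),
      ∀ x, (e x : A' ⊗[A] P) = (LinearMap.ker d).subtype.baseChange A' x := by
  obtain ⟨σ, hσ⟩ := Module.projective_lifting_property d LinearMap.id h
  have hσ' : ∀ y, d (σ y) = y := fun y => LinearMap.congr_fun hσ y
  let r : P →ₗ[A] Ker d :=
    (LinearMap.id - σ ∘ₗ d).codRestrict (LinearMap.ker d) (fun x => by
      simp [LinearMap.mem_ker, hσ'])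
  have hr : r ∘ₗ (LinearMap.ker d).subtype = LinearMap.id := by
    ext x
    have hx : d (x : P) = 0 := x.2
    simp [r, hx]
  have hr2 : (LinearMap.ker d).subtype ∘ₗ r = LinearMap.id - σ ∘ₗ d := by
    ext x
    simp [r]
  set ι : A' ⊗[A] Ker d →ₗ[A'] A' ⊗[A] P := (LinearMap.ker d).subtype.baseChange A' with hι
  have h1 : (r.baseChange A') ∘ₗ ι = LinearMap.id := by
    rw [hι, ← LinearMap.baseChange_comp, hr, LinearMap.baseChange_id]
  have h2 : ι ∘ₗ (r.baseChange A') = LinearMap.id - (σ.baseChange A') ∘ₗ (d.baseChange A') := by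
    rw [hι, ← LinearMap.baseChange_comp, hr2, LinearMap.baseChange_sub, LinearMap.baseChange_id,
      LinearMap.baseChange_comp]
  have h3 : (d.baseChange A') ∘ₗ ι = 0 := by
    rw [hι, ← LinearMap.baseChange_comp]
    have : d ∘ₗ (LinearMap.ker d).subtype = 0 := by
      ext x
      exact x.2
    rw [this, LinearMap.baseChange_zero]
  let f : A' ⊗[A] Ker d →ₗ[A'] Ker (d.baseChange A') :=
    ι.codRestrict _ fun x => LinearMap.congr_fun h3 x
  let g : Ker (d.baseChange A') →ₗ[A'] A' ⊗[A] Ker d :=
    (r.baseChange A') ∘ₗ (LinearMap.ker (d.baseChange A')).subtype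
  refine ⟨LinearEquiv.ofLinearMap f g ?_ ?_, fun x => rfl⟩
  · ext x
    have hx : d.baseChange A' (x : A' ⊗[A] P) = 0 := x.2
    have := LinearMap.congr_fun h2 (x : A' ⊗[A] P)
    simp only [LinearMap.comp_apply, LinearMap.sub_apply, LinearMap.id_apply, hx, map_zero,
      sub_zero] at this
    simpa [f, g] using this
  · exact h1

end general

end Perf

open Perf

/-- (a) the dimensions only depend on the point of `Spec A`. -/
theorem h0At_eq_residueField (K : Type u) [Field K] [Algebra A K] :
    h0At δ K = h0At δ
      (PrimeSpectrum.comap (algebraMap A K) ⊥ : PrimeSpectrum A).asIdeal.ResidueField := by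
  have h1 := h0At_add δ K
  have h2 := h0At_add δ (pt A K).asIdeal.ResidueField
  have h3 := h1At_eq_residueField' δ K
  have h4 := finrank_tensor_eq_residueField (A := A) E₀ K
  have h5 := finrank_tensor_eq_residueField (A := A) E₁ K
  change h0At δ K = h0At δ (pt A K).asIdeal.ResidueField
  omega
theorem h1At_eq_residueField (K : Type u) [Field K] [Algebra A K] :
    h1At δ K = h1At δ
      (PrimeSpectrum.comap (algebraMap A K) ⊥ : PrimeSpectrum A).asIdeal.ResidueField :=
  h1At_eq_residueField' δ K

/-- (b) the Euler characteristic is locally constant. -/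
theorem isLocallyConstant_chi :
    IsLocallyConstant fun p : PrimeSpectrum A =>
      (h0At δ p.asIdeal.ResidueField : ℤ) - (h1At δ p.asIdeal.ResidueField : ℤ) := by
  have h : (fun p : PrimeSpectrum A =>
      (h0At δ p.asIdeal.ResidueField : ℤ) - (h1At δ p.asIdeal.ResidueField : ℤ)) =
      fun p => (Module.rankAtStalk E₀ p : ℤ) - (Module.rankAtStalk E₁ p : ℤ) := by
    funext p
    have h1 := h0At_add δ p.asIdeal.ResidueField
    rw [Module.rankAtStalk_eq, Module.rankAtStalk_eq]
    unfold Ideal.Fiber
    omega
  rw [h]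
  have : Module.FinitePresentation A E₀ := Module.finitePresentation_of_projective A E₀
  have : Module.FinitePresentation A E₁ := Module.finitePresentation_of_projective A E₁
  have h0 : IsLocallyConstant (Module.rankAtStalk (R := A) E₀) :=
    Module.isLocallyConstant_rankAtStalk
  have h1 : IsLocallyConstant (Module.rankAtStalk (R := A) E₁) :=
    Module.isLocallyConstant_rankAtStalk
  exact (h0.comp (fun n : ℕ => (n : ℤ))).sub (h1.comp (fun n : ℕ => (n : ℤ)))

/-- (c) upper semicontinuity of `h¹`. -/
theorem isClosed_setOf_le_h1At (c : ℕ) :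
    IsClosed {p : PrimeSpectrum A | c ≤ h1At δ p.asIdeal.ResidueField} := by
  simp only [h1At_eq_finrank_coker]
  exact isClosed_setOf_le_finrank (Coker δ) c

/-- (d) fibrewise surjective ⇒ surjective, the kernel is f.g. projective and commutes with base change. -/
theorem surjective_of_h1At_eq_zero (h : ∀ p : PrimeSpectrum A, h1At δ p.asIdeal.ResidueField = 0) :
    Function.Surjective δ := by
  have hsupp : Module.support A (Coker δ) = ∅ := by
    rw [Set.eq_empty_iff_forall_notMem]
    intro p
    rw [Module.mem_support_iff_nontrivial_residueField_tensorProduct,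
      not_nontrivial_iff_subsingleton]
    have h1 := h p
    rw [h1At_eq_finrank_coker] at h1
    exact Module.finrank_zero_iff.1 h1
  rw [Module.support_eq_empty_iff, Submodule.Quotient.subsingleton_iff] at hsupp
  exact LinearMap.range_eq_top.1 hsupp
theorem ker_finite_projective_of_surjective (h : Function.Surjective δ) :
    Module.Finite A (Ker δ) ∧ Module.Projective A (Ker δ) := by
  obtain ⟨σ, hσ⟩ := Module.projective_lifting_property δ LinearMap.id h
  have hσ' : ∀ y, δ (σ y) = y := fun y => LinearMap.congr_fun hσ y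
  let r : E₀ →ₗ[A] Ker δ :=
    (LinearMap.id - σ ∘ₗ δ).codRestrict (LinearMap.ker δ) (fun x => by
      simp [LinearMap.mem_ker, hσ'])
  have hr : ∀ x : Ker δ, r x = x := by
    intro x
    apply Subtype.ext
    have hx : δ (x : E₀) = 0 := x.2
    simp [r, hx]
  refine ⟨Module.Finite.of_surjective r fun x => ⟨x, hr x⟩, ?_⟩
  exact Module.Projective.of_split (LinearMap.ker δ).subtype r (LinearMap.ext hr)

end Fermat.Agent.S25.B
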